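import Fermat.Agent.DedekindLittlewoodBound.Zeros

/-!
# Littlewood's bound for Dedekind zeta functions near the critical line

On the Riemann hypothesis `log |E (σ + i t)| - log (|t| + 1)` is at most `O (G / log (G/n + 3))` on
`1/2 ≤ σ ≤ 2`, and at least minus that once `σ - 1/2 ≥ 32 / log (G/n + 3)`.
-/

set_option autoImplicit false
set_option linter.style.haveILetI false

noncomputable section

universe u

open NumberField InfinitePlace Module Filter Topology Set MeasureTheory
open FA.TsfasmanVladut FA.EulerKroneckerFamilies FA.GRHBasicInequality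
open FA.FamilyZeroDensity FA.DedekindMultiplicity FA.DedekindHadamard FA.DedekindZeroCount
open FA.DedekindOrdinateGaps FA.HeckeBS FA.DedekindZF
open scoped Real Classical

namespace FA.DedekindLittlewoodBound

variable (K : Type u) [Field K] [NumberField K]

/-- `re E'/E`. -/
def zetaRate (s : ℂ) : ℝ := (deriv (cleared K) s / cleared K s).re

/-- The infinite places at `s`. -/
def archRate (s : ℂ) : ℝ :=
  nrRealPlaces K * realRateAt s + nrComplexPlaces K * complexRateAt s

theorem cleared_pt_ne (hRH : RHFor K) {σ : ℝ} (hσ : 1 / 2 < σ) (x : ℝ) :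
    cleared K (pt σ x) ≠ 0 := fun h => by
  refine xiFun_pt_ne K hRH hσ x ?_
  rw [xi_eq_mul K (by rw [pt_re]; linarith), h, mul_zero, zero_mul]

theorem fieldLog_eq_zetaRate (hRH : RHFor K) {σ : ℝ} (hσ : 1 / 2 < σ) (x : ℝ) :
    fieldLog K (pt σ x) = ((pt σ x)⁻¹).re + zetaRate K (pt σ x) + logGenus K -
      archRate K (pt σ x) := by
  rw [fieldLog, xiLog_formula K (by rw [pt_re]; linarith) (cleared_pt_ne K hRH hσ x),
    Complex.add_re, Complex.add_re, Complex.add_re, Complex.ofReal_re, archTerm, Complex.add_re,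
    ← Complex.ofReal_natCast, Complex.re_ofReal_mul, ← Complex.ofReal_natCast,
    Complex.re_ofReal_mul, Complex.div_ofNat_re, Complex.sub_re, Complex.sub_re, Complex.ofReal_re,
    Complex.ofReal_re, archRate, realRateAt, complexRateAt, zetaRate,
    show logGenus K = discLog K / 2 from rfl]
  ring

theorem continuousOn_zetaRate (hRH : RHFor K) (x : ℝ) :
    ContinuousOn (fun v => zetaRate K (pt v x)) (Ioi (1 / 2)) := by
  have hd := differentiable_cleared K
  have hp : Continuous fun v : ℝ => pt v x := by unfold pt; fun_prop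
  have hd' : Continuous (deriv (cleared K)) := (hd.contDiff (n := 1)).continuous_deriv le_rfl
  exact Complex.continuous_re.comp_continuousOn ((hd'.comp hp).continuousOn.div
    (hd.continuous.comp hp).continuousOn fun v hv => cleared_pt_ne K hRH hv x)

theorem re_inv_bounds {σ : ℝ} (hσ : 1 / 2 ≤ σ) (x : ℝ) :
    0 ≤ ((pt σ x)⁻¹).re ∧ ((pt σ x)⁻¹).re ≤ 2 := by
  constructor
  · rw [Complex.inv_re, pt_re]
    exact div_nonneg (by linarith) (Complex.normSq_nonneg _)
  · refine (Complex.re_le_norm _).trans ?_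
    rw [norm_inv]
    have h := Complex.re_le_norm (pt σ x)
    rw [pt_re] at h
    exact (inv_anti₀ (by norm_num) (hσ.trans h)).trans_eq (by norm_num)

/-- **The averaged explicit formula for `re E'/E`.** -/
theorem abs_zetaRate_sub_le (hRH : RHFor K) {L : ℕ} (hL : 0 < (harmonic L : ℝ)) {σ : ℝ}
    (hσ : 1 / 2 < σ) (x : ℝ) :
    |(harmonic L : ℝ) * zetaRate K (pt σ x) - (avgAlt L fun j : ℕ => fieldLog K (pt (σ + j) x)) -
        avgAlt L (primeTerms K (pt σ x))| ≤
      (harmonic L : ℝ) * (12 * √(L : ℝ) + 2 * finrank ℚ K + 2) := by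
  have e1 := avgAlt_fieldLog_eq K L (by linarith : 0 < σ) x
  rw [fieldLog_eq_zetaRate K hRH hσ x] at e1
  have hP : |avgAlt L (poleTerms (pt σ x))| ≤ (harmonic L : ℝ) * (12 * √(L : ℝ)) :=
    avgAlt_mono_abs fun k hk =>
      (abs_altSum_poleTerms_le' (by rw [pt_re]; linarith) (Finset.mem_Icc.1 hk).1).trans
        (mul_le_mul_of_nonneg_left (Real.sqrt_le_sqrt (Nat.cast_le.2 (Finset.mem_Icc.1 hk).2))
          (by norm_num))
  have hA := abs_avgAlt_archTerms_add_le K (x := x) hσ L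
  rw [← archRate] at hA
  obtain ⟨r0, r1⟩ := re_inv_bounds hσ.le x
  have i0 := mul_nonneg hL.le r0
  have i1 := mul_le_mul_of_nonneg_left r1 hL.le
  rw [abs_le] at hP hA ⊢
  constructor <;> linarith

theorem integral_zetaRate_le (hRH : RHFor K) {L : ℕ} {a : ℝ} (ha : 0 < a) (hab : a ≤ 3 / 2)
    (haH : 16 ≤ a * (harmonic L : ℝ)) (x : ℝ) :
    |∫ v in (1 / 2 + a)..2, zetaRate K (pt v x)| ≤
      (2 * fieldLog K (pt (1 / 2 + a) x) + fieldLog K (pt (1 / 2 + 3 / 2) x)) / (harmonic L : ℝ) +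
        5 * √(L : ℝ) * finrank ℚ K + 3 / 2 * (12 * √(L : ℝ) + 2 * finrank ℚ K + 2) := by
  obtain ⟨H, hH⟩ : ∃ H : ℝ, H = (harmonic L : ℝ) := ⟨_, rfl⟩
  have hH0 : 0 < (harmonic L : ℝ) := pos_of_mul_pos_right (by linarith) ha.le
  have hσ : 1 / 2 < 1 / 2 + a := by linarith
  have hle : 1 / 2 + a ≤ 2 := by linarith
  have hsub : uIcc (1 / 2 + a) 2 ⊆ Ici (1 / 2 + a) := by
    rw [uIcc_of_le hle]
    exact Icc_subset_Ici_self
  have hsub' : uIcc (1 / 2 + a) 2 ⊆ Ioi (1 / 2) := hsub.trans (Ici_subset_Ioi.2 hσ)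
  obtain ⟨F, hF⟩ : ∃ F : ℝ → ℝ, F = fun v => avgAlt L fun j : ℕ => fieldLog K (pt (v + j) x) :=
    ⟨_, rfl⟩
  obtain ⟨R, hR⟩ : ∃ R : ℝ → ℝ, R = fun v => avgAlt L (primeTerms K (pt v x)) := ⟨_, rfl⟩
  have hFc : ContinuousOn F (uIcc (1 / 2 + a) 2) := by
    rw [hF]
    refine continuousOn_finsetSum _ fun k _ => continuousOn_const.mul
      (continuousOn_finsetSum _ fun j _ => continuousOn_const.mul ?_)
    refine ((continuousOn_fieldLog_sigma K hRH x).comp
      (continuous_id.add continuous_const).continuousOn fun v hv => ?_).congr fun v _ => rfl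
    have : (1 / 2 : ℝ) < v := hsub' hv
    show (1 / 2 : ℝ) < v + j
    linarith [(Nat.cast_nonneg j : (0 : ℝ) ≤ j)]
  have hRc : ContinuousOn R (uIcc (1 / 2 + a) 2) := by
    rw [hR]
    exact continuousOn_finsetSum _ fun k _ => continuousOn_const.mul
      ((primeTerms_horizontal K hσ hle k x).1.mono hsub)
  have hz : ContinuousOn (fun v => (harmonic L : ℝ) * zetaRate K (pt v x)) (uIcc (1 / 2 + a) 2) :=
    continuousOn_const.mul ((continuousOn_zetaRate K hRH x).mono hsub')
  have hB : ∀ v ∈ uIoc (1 / 2 + a) 2, ‖(harmonic L : ℝ) * zetaRate K (pt v x) - F v - R v‖ ≤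
      (harmonic L : ℝ) * (12 * √(L : ℝ) + 2 * finrank ℚ K + 2) := fun v hv => by
    rw [uIoc_of_le hle] at hv
    rw [hF, hR, Real.norm_eq_abs]
    exact abs_zetaRate_sub_le K hRH hH0 (hσ.trans hv.1) x
  have h1 := intervalIntegral.norm_integral_le_of_norm_le_const hB
  rw [intervalIntegral.integral_sub (hz.fun_sub hFc).intervalIntegrable hRc.intervalIntegrable,
    intervalIntegral.integral_sub hz.intervalIntegrable hFc.intervalIntegrable,
    intervalIntegral.integral_const_mul, Real.norm_eq_abs,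
    abs_of_nonneg (by linarith : (0 : ℝ) ≤ 2 - (1 / 2 + a))] at h1
  have h2 : |∫ v in (1 / 2 + a)..2, F v| ≤
      2 * fieldLog K (pt (1 / 2 + a) x) + fieldLog K (pt (1 / 2 + 3 / 2) x) := by
    have h := abs_integral_avgAlt_fieldLog_le K hRH ha hab haH x
    have e := intervalIntegral.integral_comp_add_left F (1 / 2) (a := a) (b := 3 / 2)
    rw [show (1 / 2 : ℝ) + 3 / 2 = 2 by norm_num] at e
    rw [← e, hF]
    exact h
  have h3 : |∫ v in (1 / 2 + a)..2, R v| ≤
      (harmonic L : ℝ) * (5 * √(L : ℝ) * finrank ℚ K) := by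
    rw [hR]
    simp only [avgAlt]
    rw [intervalIntegral.integral_finsetSum fun k _ => (continuousOn_const.fun_mul
      ((primeTerms_horizontal K hσ hle k x).1.mono hsub)).intervalIntegrable, harmonic_cast,
      Finset.sum_mul]
    refine (Finset.abs_sum_le_sum_abs _ _).trans (Finset.sum_le_sum fun k hk => ?_)
    rw [intervalIntegral.integral_const_mul, abs_mul,
      abs_of_nonneg (inv_nonneg.2 (Nat.cast_nonneg k))]
    refine mul_le_mul_of_nonneg_left ((primeTerms_horizontal K hσ hle k x).2.trans ?_)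
      (inv_nonneg.2 (Nat.cast_nonneg k))
    exact mul_le_mul_of_nonneg_right (mul_le_mul_of_nonneg_left
      (Real.sqrt_le_sqrt (Nat.cast_le.2 (Finset.mem_Icc.1 hk).2)) (by norm_num))
      (Nat.cast_nonneg _)
  have hc0 : 0 ≤ (harmonic L : ℝ) * (12 * √(L : ℝ) + 2 * finrank ℚ K + 2) := by positivity
  have h4 := mul_le_mul_of_nonneg_left (show 2 - (1 / 2 + a) ≤ 3 / 2 by linarith) hc0
  rw [← hH] at h1 h3 h4 hH0 ⊢
  refine le_of_mul_le_mul_left ?_ hH0
  rw [mul_add, mul_add, mul_div_cancel₀ _ hH0.ne',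
    show H * |∫ v in (1 / 2 + a)..2, zetaRate K (pt v x)| =
      |H * ∫ v in (1 / 2 + a)..2, zetaRate K (pt v x)| by rw [abs_mul, abs_of_pos hH0]]
  have h5 := abs_add_le
    ((H * (∫ v in (1 / 2 + a)..2, zetaRate K (pt v x))) - (∫ v in (1 / 2 + a)..2, F v) -
      ∫ v in (1 / 2 + a)..2, R v)
    ((∫ v in (1 / 2 + a)..2, F v) + ∫ v in (1 / 2 + a)..2, R v)
  have h6 := abs_add_le (∫ v in (1 / 2 + a)..2, F v) (∫ v in (1 / 2 + a)..2, R v)
  rw [sub_sub, sub_add_cancel, ← sub_sub] at h5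
  linarith

theorem fieldLog_le_wide (hRH : RHFor K) {L : ℕ} {a : ℝ} (ha : 0 < a) (hab : a ≤ 3 / 2)
    (haH : 4 ≤ a * (harmonic L : ℝ)) (hH : 16 ≤ (harmonic L : ℝ)) (x : ℝ) :
    fieldLog K (pt (1 / 2 + a) x) ≤
      24 * (logGenus K + 16 * √(L : ℝ) + 16 * Real.log (|x| + 3) * finrank ℚ K) := by
  have hlog := mul_nonneg (Real.log_nonneg (show 1 ≤ |x| + 3 by linarith [abs_nonneg x]))
    (Nat.cast_nonneg (α := ℝ) (finrank ℚ K))
  have h0 : 0 ≤ logGenus K + 16 * √(L : ℝ) + 16 * Real.log (|x| + 3) * finrank ℚ K := by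
    linarith [logGenus_nonneg K, Real.sqrt_nonneg (L : ℝ)]
  rcases le_total a (1 / 4) with h | h
  · linarith [fieldLog_le_general K hRH ha h haH x]
  have hq := fieldLog_le_general K hRH (L := L) (a := 1 / 4) (by norm_num) le_rfl (by linarith) x
  have hk : fieldLog K (pt (1 / 2 + a) x) ≤ 6 * fieldLog K (pt (1 / 2 + 1 / 4) x) := by
    refine hasSum_le (fun ρ => ?_) (hasSum_reTerm K (xiFun_pt_ne K hRH (by linarith) x))
      ((hasSum_reTerm K (xiFun_pt_ne K hRH (by norm_num) x)).mul_left 6)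
    rw [reTerm_pt K hRH, reTerm_pt K hRH, add_sub_cancel_left, add_sub_cancel_left,
      mul_left_comm (6 : ℝ)]
    refine mul_le_mul_of_nonneg_left ?_ (Nat.cast_nonneg _)
    rw [show (6 : ℝ) * (1 / 4 / ((1 / 4) ^ 2 + (x - ρ.im) ^ 2)) =
      3 / 2 / ((1 / 4) ^ 2 + (x - ρ.im) ^ 2) by ring]
    exact div_le_div₀ (by norm_num) hab (by positivity)
      (add_le_add_left (pow_le_pow_left₀ (by norm_num) h 2) _)
  linarith

theorem hasDerivAt_cleared_pt (x v : ℝ) :
    HasDerivAt (fun y : ℝ => cleared K (pt y x)) (deriv (cleared K) (pt v x)) v := by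
  have h := ((differentiable_cleared K) (pt v x)).hasDerivAt
  have h1 : HasDerivAt (fun z : ℂ => cleared K (z + x * Complex.I)) (deriv (cleared K) (pt v x))
      (v : ℂ) := h.comp_add_const (v : ℂ) (x * Complex.I)
  exact h1.comp_ofReal

theorem hasDerivAt_normSq_cleared (x v : ℝ) :
    HasDerivAt (fun y : ℝ => Complex.normSq (cleared K (pt y x)))
      (2 * (deriv (cleared K) (pt v x) * (starRingEnd ℂ) (cleared K (pt v x))).re) v := by
  have h := hasDerivAt_cleared_pt K x v
  have hr := Complex.reCLM.hasFDerivAt.comp_hasDerivAt v h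
  have hi := Complex.imCLM.hasFDerivAt.comp_hasDerivAt v h
  refine ((hr.fun_mul hr).fun_add (hi.fun_mul hi)).congr_of_eventuallyEq
    (Eventually.of_forall fun y => Complex.normSq_apply _) |>.congr_deriv ?_
  simp [Complex.mul_re]
  ring

theorem two_re_mul_conj (x v : ℝ) :
    2 * (deriv (cleared K) (pt v x) * (starRingEnd ℂ) (cleared K (pt v x))).re =
      2 * zetaRate K (pt v x) * Complex.normSq (cleared K (pt v x)) := by
  obtain ⟨z, hz⟩ : ∃ z, z = cleared K (pt v x) := ⟨_, rfl⟩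
  rw [zetaRate, ← hz]
  rcases eq_or_ne z 0 with h | h
  · simp [h]
  · have hn : Complex.normSq z ≠ 0 := (Complex.normSq_pos.2 h).ne'
    rw [Complex.div_re, Complex.mul_re, Complex.conj_re, Complex.conj_im]
    field_simp
    ring

theorem log_norm_two_bounds (x : ℝ) :
    Real.log (|x| + 1) - 1 - finrank ℚ K * eulerConst 2 ≤ Real.log ‖cleared K (pt 2 x)‖ ∧
      Real.log ‖cleared K (pt 2 x)‖ ≤ Real.log (|x| + 1) + finrank ℚ K * eulerConst 2 := by
  have hre : 1 < (pt 2 x).re := by rw [pt_re]; norm_num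
  obtain ⟨h1, h2⟩ := norm_dedekindZeta_bounds (K := K) hre
  rw [pt_re] at h1 h2
  have hz : 0 < ‖dedekindZeta K (pt 2 x)‖ := (Real.exp_pos _).trans_le h1
  have g1 : (|x| + 1) / 2 ≤ ‖pt 2 x - 1‖ := by
    have a1 := Complex.re_le_norm (pt 2 x - 1)
    have a2 := Complex.abs_im_le_norm (pt 2 x - 1)
    simp at a1 a2
    linarith
  have g2 : ‖pt 2 x - 1‖ ≤ |x| + 1 := by
    refine (Complex.norm_le_abs_re_add_abs_im _).trans (le_of_eq ?_)
    norm_num
    ring
  have hp : 0 < ‖pt 2 x - 1‖ := lt_of_lt_of_le (by positivity) g1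
  rw [cleared_spec K hre, norm_mul, Real.log_mul hp.ne' hz.ne']
  have l1 := Real.log_le_log (by positivity) g1
  have l2 := Real.log_le_log hp g2
  rw [Real.log_div (by positivity) two_ne_zero] at l1
  have l3 := (Real.le_log_iff_exp_le hz).2 h1
  have l4 := (Real.log_le_iff_le_exp hz).2 h2
  have hl2 : Real.log 2 ≤ 1 := (Real.log_le_iff_le_exp two_pos).2 (by
    linarith [Real.add_one_le_exp 1])
  constructor <;> linarith

/-- **Littlewood's bound, uniformly in the field.** -/
theorem exists_log_norm_bounds : ∃ C : ℝ, 0 < C ∧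
    ∀ (K : Type u) [Field K] [NumberField K], RHFor K → ∀ t G : ℝ,
      G = logGenus K + finrank ℚ K * Real.log (|t| + 3) + 3 →
      (∀ σ : ℝ, 1 / 2 ≤ σ → σ ≤ 2 → ‖cleared K (pt σ t)‖ ≤
        (|t| + 1) * Real.exp (C * G / Real.log (G / finrank ℚ K + 3))) ∧
      ∀ σ : ℝ, 1 / 2 + 32 / Real.log (G / finrank ℚ K + 3) ≤ σ → σ ≤ 2 →
        (|t| + 1) * Real.exp (-(C * G / Real.log (G / finrank ℚ K + 3))) ≤
          ‖cleared K (pt σ t)‖ := by
  have hc2 : 0 ≤ eulerConst 2 := eulerConst_nonneg _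
  obtain ⟨M, hM⟩ : ∃ M : ℝ, M = Real.exp 64 := ⟨_, rfl⟩
  have hM1 : 1 ≤ M := hM ▸ Real.one_le_exp (by norm_num)
  refine ⟨2 * (1600 + 2 * M * (60 + eulerConst 2)), by positivity, fun K _ _ hRH t G hG => ?_⟩
  obtain ⟨n, hn⟩ : ∃ n : ℝ, n = (finrank ℚ K : ℝ) := ⟨_, rfl⟩
  rw [← hn] at hG ⊢
  obtain ⟨Q, hQ⟩ : ∃ Q, Q = G / n := ⟨_, rfl⟩
  rw [← hQ]
  obtain ⟨ℓ, hℓ⟩ : ∃ ℓ, ℓ = max 64 (Real.log Q) := ⟨_, rfl⟩
  obtain ⟨s, hs⟩ : ∃ s, s = Real.exp (ℓ / 2) := ⟨_, rfl⟩
  obtain ⟨L, hL⟩ : ∃ L, L = ⌊Real.exp ℓ⌋₊ := ⟨_, rfl⟩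
  have hn1 : 1 ≤ n := hn ▸ Nat.one_le_cast.2 finrank_pos
  have hg := logGenus_nonneg K
  have hlt1 : 1 ≤ Real.log (|t| + 3) := by
    rw [Real.le_log_iff_exp_le (by positivity)]
    linarith [Real.exp_one_lt_d9, abs_nonneg t]
  have hlt := mul_le_mul_of_nonneg_left hlt1 (show 0 ≤ n by linarith)
  have hGQ : G = Q * n := by rw [hQ, div_mul_cancel₀ _ (by linarith)]
  have hQ1 : 1 ≤ Q := by rw [hQ, le_div_iff₀ (by linarith)]; linarith
  have hℓ64 : 64 ≤ ℓ := hℓ ▸ le_max_left _ _
  have hH : ℓ ≤ (harmonic L : ℝ) := by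
    refine le_trans ?_ (log_add_one_le_harmonic L)
    push_cast
    rw [Real.le_log_iff_exp_le (by positivity), hL]
    exact (Nat.lt_floor_add_one _).le
  have hsL : √(L : ℝ) ≤ s := by
    rw [hs, Real.exp_half]
    exact Real.sqrt_le_sqrt (hL ▸ Nat.floor_le (Real.exp_pos _).le)
  have hs1 : 1 ≤ s := hs ▸ Real.one_le_exp (by linarith)
  have hns : n * s * ℓ ≤ 2 * M * G := by
    have h1 : ℓ ≤ 2 * s := by
      rw [hs]
      linarith [Real.add_one_le_exp (ℓ / 2)]
    have h2 : s * s ≤ M * Q := by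
      rw [hs, ← Real.exp_add, add_halves, hℓ, hM]
      rcases le_total 64 (Real.log Q) with h | h
      · rw [max_eq_right h, Real.exp_log (by linarith)]
        exact le_mul_of_one_le_left (by linarith) (Real.one_le_exp (by norm_num))
      · rw [max_eq_left h]
        exact le_mul_of_one_le_right (Real.exp_pos _).le hQ1
    have h3 := mul_le_mul_of_nonneg_left h1 (show 0 ≤ n * s by positivity)
    have h4 := mul_le_mul_of_nonneg_left h2 (show 0 ≤ n by linarith)
    rw [hGQ]
    linarith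
  obtain ⟨w, hw⟩ : ∃ w, w = G / ℓ := ⟨_, rfl⟩
  have hG0 : 0 ≤ G := by linarith
  have hw0 : 0 ≤ w := hw ▸ div_nonneg hG0 (by linarith)
  have hnsw : n * s ≤ 2 * M * w := by
    rw [hw, ← mul_div_assoc, le_div_iff₀ (by linarith)]
    exact hns
  have hn_ns : n ≤ n * s := le_mul_of_one_le_right (by linarith) hs1
  have hs_ns : s ≤ n * s := le_mul_of_one_le_left (by linarith) hn1
  have hwM : 0 ≤ M * w := by positivity
  have hlQ : Real.log (Q + 3) ≤ 2 * ℓ := by
    have h1 := Real.log_le_log (show 0 < Q + 3 by linarith) (show Q + 3 ≤ 4 * Q by linarith)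
    rw [Real.log_mul (by norm_num) (by linarith)] at h1
    have h2 : Real.log Q ≤ ℓ := hℓ ▸ le_max_right _ _
    linarith [Real.log_le_sub_one_of_pos (show (0 : ℝ) < 4 by norm_num)]
  have hlQ0 : 0 < Real.log (Q + 3) := Real.log_pos (by linarith)
  have hwl : w ≤ 2 * (G / Real.log (Q + 3)) := by
    rw [hw, ← mul_div_assoc, div_le_div_iff₀ (by linarith) hlQ0]
    linarith [mul_le_mul_of_nonneg_left hlQ hG0]
  have main : ∀ a : ℝ, 16 / ℓ ≤ a → a ≤ 3 / 2 →
      |Real.log ‖cleared K (pt (1 / 2 + a) t)‖ - Real.log ‖cleared K (pt 2 t)‖| ≤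
        1300 * w + M * w * 100 := fun a ha hab => by
    have ha0 : 0 < a := lt_of_lt_of_le (div_pos (by norm_num) (by linarith)) ha
    have haH : 16 ≤ a * (harmonic L : ℝ) := by
      rw [div_le_iff₀ (by linarith : (0 : ℝ) < ℓ)] at ha
      linarith [mul_le_mul_of_nonneg_left hH ha0.le]
    have hmem : ∀ v ∈ uIcc (1 / 2 + a) 2, 1 / 2 < v := fun v hv => by
      rw [uIcc_of_le (by linarith)] at hv
      linarith [hv.1]
    have hI : ∫ v in (1 / 2 + a)..2, zetaRate K (pt v t) =
        Real.log ‖cleared K (pt 2 t)‖ - Real.log ‖cleared K (pt (1 / 2 + a) t)‖ := by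
      refine intervalIntegral.integral_eq_sub_of_hasDerivAt
        (f := fun y => Real.log ‖cleared K (pt y t)‖) (fun v hv => ?_)
        ((continuousOn_zetaRate K hRH t).mono fun v hv => hmem v hv).intervalIntegrable
      have hne := cleared_pt_ne K hRH (hmem v hv) t
      have hn0 : Complex.normSq (cleared K (pt v t)) ≠ 0 := (Complex.normSq_pos.2 hne).ne'
      have hd := ((hasDerivAt_normSq_cleared K t v).log hn0).div_const 2
      refine (hd.congr_of_eventuallyEq (Eventually.of_forall fun y => ?_)).congr_deriv ?_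
      · show Real.log ‖cleared K (pt y t)‖ = Real.log (Complex.normSq (cleared K (pt y t))) / 2
        rw [Complex.normSq_eq_norm_sq, Real.log_pow]
        push_cast
        ring
      · rw [two_re_mul_conj]
        field_simp
    have h := integral_zetaRate_le K hRH ha0 hab haH t
    rw [hI, abs_sub_comm] at h
    refine h.trans ?_
    rw [← hn]
    have f1 := fieldLog_le_wide K hRH ha0 hab (by linarith) (by linarith) t
    have f2 := fieldLog_le_wide K hRH (a := 3 / 2) (by norm_num) le_rfl (by linarith)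
      (by linarith) (L := L) t
    rw [← hn] at f1 f2
    have hX : (2 * fieldLog K (pt (1 / 2 + a) t) + fieldLog K (pt (1 / 2 + 3 / 2) t)) /
        (harmonic L : ℝ) ≤ 1152 * (G / ℓ + s / 64) := by
      have hA : 2 * fieldLog K (pt (1 / 2 + a) t) + fieldLog K (pt (1 / 2 + 3 / 2) t) ≤
          1152 * (G + s) := by linarith
      refine (div_le_div_of_nonneg_right hA (by linarith)).trans ?_
      refine (div_le_div_of_nonneg_left (by positivity) (by linarith : (0 : ℝ) < ℓ) hH).trans ?_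
      rw [mul_div_assoc, add_div]
      exact mul_le_mul_of_nonneg_left (add_le_add le_rfl
        (div_le_div_of_nonneg_left (by linarith) (by norm_num) hℓ64)) (by norm_num)
    rw [← hw] at hX
    have h5 := mul_le_mul_of_nonneg_right hsL (show 0 ≤ n by linarith)
    linarith
  obtain ⟨p1, p2⟩ := log_norm_two_bounds K t
  rw [← hn] at p1 p2
  have hec : n * eulerConst 2 ≤ 2 * M * w * eulerConst 2 :=
    mul_le_mul_of_nonneg_right (hn_ns.trans hnsw) hc2
  have hexp : ∀ X : ℝ, X ≤ w * (1600 + 2 * M * (60 + eulerConst 2)) →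
      X ≤ 2 * (1600 + 2 * M * (60 + eulerConst 2)) * G / Real.log (Q + 3) := fun X hX => by
    refine hX.trans ((mul_le_mul_of_nonneg_right hwl (by positivity)).trans_eq ?_)
    ring
  have ht1 : 0 < |t| + 1 := by positivity
  refine ⟨fun σ h1 h2 => ?_, fun σ h1 h2 => ?_⟩
  · obtain ⟨a0, ha0⟩ : ∃ a0, a0 = 16 / ℓ := ⟨_, rfl⟩
    have ha0p : 0 < a0 := ha0 ▸ div_pos (by norm_num) (by linarith)
    have ha01 : a0 ≤ 1 / 4 := by rw [ha0, div_le_iff₀ (by linarith)]; linarith
    have hin : ∀ b : ℝ, a0 ≤ b → b ≤ 3 / 2 → Real.log ‖cleared K (pt (1 / 2 + b) t)‖ ≤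
        Real.log (|t| + 1) + (1300 * w + M * w * 100 + 2 * M * w * eulerConst 2) :=
      fun b hb hb' => by
      have := (abs_le.1 (main b (ha0 ▸ hb) hb')).2
      linarith
    rcases le_total (1 / 2 + a0) σ with h | h
    · have hb := hin (σ - 1 / 2) (by linarith) (by linarith)
      rw [add_sub_cancel] at hb
      have hpos : 0 < ‖cleared K (pt σ t)‖ :=
        norm_pos_iff.2 (cleared_pt_ne K hRH (by linarith) t)
      rw [← Real.exp_log ht1, ← Real.exp_add, ← Real.log_le_iff_le_exp hpos]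
      have := hexp (1300 * w + M * w * 100 + 2 * M * w * eulerConst 2) (by linarith)
      linarith
    obtain ⟨B, hB⟩ : ∃ B, B = 14 * G := ⟨_, rfl⟩
    have hmono : MonotoneOn (fun v => Complex.normSq (cleared K (pt v t)) * Real.exp (2 * B * v))
        (Icc σ (1 / 2 + a0)) := by
      have hd : ∀ v, HasDerivAt
          (fun v => Complex.normSq (cleared K (pt v t)) * Real.exp (2 * B * v))
          (2 * (zetaRate K (pt v t) + B) * Complex.normSq (cleared K (pt v t)) *
            Real.exp (2 * B * v)) v := fun v => by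
        refine ((hasDerivAt_normSq_cleared K t v).fun_mul
          (((hasDerivAt_id' v).const_mul (2 * B)).exp)).congr_deriv ?_
        rw [two_re_mul_conj]
        ring
      refine monotoneOn_of_hasDerivWithinAt_nonneg (convex_Icc _ _)
        (fun v _ => (hd v).continuousAt.continuousWithinAt) (fun v _ => (hd v).hasDerivWithinAt)
        fun v hv => ?_
      rw [interior_Icc] at hv
      have hv1 : 1 / 2 < v := lt_of_le_of_lt h1 hv.1
      refine mul_nonneg (mul_nonneg ?_ (Complex.normSq_nonneg _)) (Real.exp_pos _).le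
      have hf := fieldLog_nonneg K hRH hv1 t
      rw [fieldLog_eq_zetaRate K hRH hv1 t] at hf
      obtain ⟨-, r1⟩ := re_inv_bounds hv1.le t
      obtain ⟨q1, q2⟩ := abs_rates_sub_log_le (s := pt v t) (by rw [pt_re]; linarith)
        (by rw [pt_re]; linarith [hv.2])
      rw [pt_im, abs_le] at q1 q2
      have u1 := mul_le_mul_of_nonneg_left q1.2 (Nat.cast_nonneg (α := ℝ) (nrRealPlaces K))
      have u2 := mul_le_mul_of_nonneg_left q2.2 (Nat.cast_nonneg (α := ℝ) (nrComplexPlaces K))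
      rw [archRate] at hf
      have hdeg := degree_split K
      rw [← hn] at hdeg
      rw [hB]
      have hl : n * Real.log (|t| + 3) = (nrRealPlaces K : ℝ) * Real.log (|t| + 3) +
          2 * ((nrComplexPlaces K : ℝ) * Real.log (|t| + 3)) := by rw [← hdeg]; ring
      linarith [mul_nonneg (show 0 ≤ n by linarith) (show 0 ≤ Real.log (|t| + 3) by linarith)]
    have hm := hmono (left_mem_Icc.2 h) (right_mem_Icc.2 h) h
    dsimp only at hm
    have hb := hin a0 le_rfl (by linarith)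
    have hp0 : 0 < ‖cleared K (pt (1 / 2 + a0) t)‖ :=
      norm_pos_iff.2 (cleared_pt_ne K hRH (by linarith) t)
    have hsq : ‖cleared K (pt σ t)‖ ^ 2 ≤
        (‖cleared K (pt (1 / 2 + a0) t)‖ * Real.exp (B * a0)) ^ 2 := by
      rw [← Complex.normSq_eq_norm_sq, mul_pow, ← Complex.normSq_eq_norm_sq, ← Real.exp_nat_mul]
      refine le_of_mul_le_mul_right ?_ (Real.exp_pos (2 * B * σ))
      refine hm.trans ?_
      rw [mul_assoc (Complex.normSq (cleared K (pt (1 / 2 + a0) t))) (Real.exp _), ← Real.exp_add]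
      refine mul_le_mul_of_nonneg_left (Real.exp_le_exp.2 ?_) (Complex.normSq_nonneg _)
      push_cast
      linarith [mul_nonneg (show 0 ≤ B by rw [hB]; linarith) (show 0 ≤ σ - 1 / 2 by linarith)]
    refine ((pow_le_pow_iff_left₀ (norm_nonneg _) (by positivity) two_ne_zero).1 hsq).trans ?_
    rw [← Real.exp_log hp0, ← Real.exp_add, ← Real.exp_log ht1, ← Real.exp_add]
    refine Real.exp_le_exp.2 ?_
    have hBa : B * a0 = 224 * w := by rw [hB, ha0, hw]; ring
    have := hexp (1300 * w + M * w * 100 + 2 * M * w * eulerConst 2 + 224 * w) (by linarith)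
    linarith
  · have hσ : 1 / 2 < σ := by
      have : 0 < 32 / Real.log (Q + 3) := by positivity
      linarith
    have hb := (abs_le.1 (main (σ - 1 / 2) ?_ (by linarith))).1
    · rw [add_sub_cancel] at hb
      have hpos : 0 < ‖cleared K (pt σ t)‖ := norm_pos_iff.2 (cleared_pt_ne K hRH hσ t)
      rw [← Real.exp_log ht1, ← Real.exp_add, ← Real.le_log_iff_exp_le hpos]
      have := hexp (1 + (1300 * w + M * w * 100 + 2 * M * w * eulerConst 2)) (by linarith)
      linarith
    · refine le_trans ?_ (show 32 / Real.log (Q + 3) ≤ σ - 1 / 2 by linarith)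
      rw [div_le_div_iff₀ (by linarith) hlQ0]
      linarith

end FA.DedekindLittlewoodBound

end
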