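import Fermat.Agent.DedekindOrdinateGaps.Rates

/-!
# The averaged explicit formula right of the critical line, integrated in `σ`

On `re s ≥ 1/2` the `k`-th difference of the poles is at most `12 √k`; along a horizontal segment
the primes integrate to at most `5 n √k` and the averaged zeros to `O (f)`.
-/

set_option autoImplicit false
set_option linter.style.haveILetI false

noncomputable section

universe u

open NumberField InfinitePlace Module Filter Topology Set MeasureTheory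
open FA.TsfasmanVladut FA.EulerKroneckerFamilies FA.GRHBasicInequality
open FA.FamilyZeroDensity FA.DedekindMultiplicity FA.DedekindHadamard FA.DedekindOrdinateGaps
open scoped Real Classical

namespace FA.DedekindLittlewoodBound

theorem altSum_shift (g : ℕ → ℝ) (k : ℕ) :
    altSum k (fun j => if j = 0 then 0 else g (j - 1)) = -∑ l ∈ Finset.range k, altSum l g := by
  induction k with
  | zero => simp [altSum]
  | succ k ih =>
    rw [altSum_succ, ih, Finset.sum_range_succ]
    simp only [Nat.add_one_ne_zero, if_false, add_tsub_cancel_right]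
    ring

theorem fdRatio_half_le (l : ℕ) : fdRatio (1 / 2) l ≤ 4 * (√((l : ℝ) + 1))⁻¹ := by
  rcases Nat.eq_zero_or_pos l with rfl | hl
  · simp [fdRatio]
    norm_num
  have hk : (1 : ℝ) ≤ l := Nat.one_le_cast.2 hl
  have hs : 0 < √((l : ℝ) + 1) := Real.sqrt_pos.2 (by linarith)
  have hP : 0 < ∏ i ∈ Finset.range l, (1 / 2 + (i : ℝ)) :=
    Finset.prod_pos fun i _ => by positivity
  have h := factorial_le_sqrt hl
  rw [show ∏ i ∈ Finset.range l, ((i : ℝ) + 1 / 2) = ∏ i ∈ Finset.range l, (1 / 2 + (i : ℝ)) from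
    Finset.prod_congr rfl fun i _ => add_comm _ _] at h
  rw [fdRatio, Finset.prod_range_succ, ← div_eq_mul_inv, div_le_div_iff₀ (by positivity) hs]
  refine (mul_le_mul_of_nonneg_right h hs.le).trans ?_
  have h1 : √(l : ℝ) * √((l : ℝ) + 1) ≤ (l : ℝ) + 1 := by
    have := mul_le_mul_of_nonneg_right
      (Real.sqrt_le_sqrt (show (l : ℝ) ≤ (l : ℝ) + 1 by linarith)) hs.le
    rwa [Real.mul_self_sqrt (by linarith)] at this
  linarith [mul_le_mul_of_nonneg_left h1 hP.le, mul_le_mul_of_nonneg_left hk hP.le]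

theorem abs_altSum_re_inv_le {s : ℂ} (hs : 1 / 2 ≤ s.re) (l : ℕ) :
    |altSum l fun j : ℕ => ((s + j)⁻¹).re| ≤ fdRatio (1 / 2) l := by
  rw [re_altSum]
  exact (Complex.abs_re_le_norm _).trans ((norm_altSum_inv_le l (by linarith)).trans
    (fdRatio_anti (by norm_num) hs l))

/-- **The poles, on the whole half plane.** -/
theorem abs_altSum_poleTerms_le' {s : ℂ} (hs : 1 / 2 ≤ s.re) {k : ℕ} (hk : 1 ≤ k) :
    |altSum k (poleTerms s)| ≤ 12 * √(k : ℝ) := by
  have e : poleTerms s = fun j : ℕ => (if j = 0 then 0 else ((s + j)⁻¹).re) +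
      (if j = 0 then 0 else ((s + ((j - 1 : ℕ) : ℂ))⁻¹).re) := funext fun j => by
    rw [poleTerms]
    split_ifs with hj
    · simp
    · rw [Nat.cast_sub (Nat.one_le_iff_ne_zero.2 hj), Nat.cast_one, add_sub_assoc]
  have h1 := (abs_altSum_re_inv_le hs k).trans
    ((fdRatio_le_zero (by norm_num) k).trans_eq (by norm_num : ((1 : ℝ) / 2)⁻¹ = 2))
  have h0 : |(s⁻¹).re| ≤ 2 := by
    refine (Complex.abs_re_le_norm _).trans ?_
    rw [norm_inv]
    exact (inv_anti₀ (by norm_num) (hs.trans (Complex.re_le_norm _))).trans_eq (by norm_num)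
  have h2 : ∑ l ∈ Finset.range k, |altSum l fun j : ℕ => ((s + j)⁻¹).re| ≤ 8 * √(k : ℝ) := by
    clear hk h1
    induction k with
    | zero => simp
    | succ m ih =>
      rw [Finset.sum_range_succ, Nat.cast_succ]
      linarith [(abs_altSum_re_inv_le hs m).trans (fdRatio_half_le m),
        inv_sqrt_step (show (0 : ℝ) ≤ m from Nat.cast_nonneg m)]
  have hs1 : 1 ≤ √(k : ℝ) := Real.one_le_sqrt.2 (Nat.one_le_cast.2 hk)
  rw [e, altSum_add, altSum_ite, altSum_shift (fun i : ℕ => ((s + i)⁻¹).re), Nat.cast_zero,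
    add_zero]
  have h3 := (Finset.abs_sum_le_sum_abs (fun l => altSum l fun j : ℕ => ((s + j)⁻¹).re)
    (Finset.range k)).trans h2
  rw [abs_le] at h0 h1 h3 ⊢
  constructor <;> linarith

theorem abs_integral_primeWave_horizontal_le {σ σ' : ℝ} (hσ : 1 / 2 < σ) (h : σ ≤ σ') (k : ℕ)
    {q : ℕ} (hq : 2 ≤ q) (m : ℕ) (x : ℝ) :
    |∫ v in σ..σ', primeWave v k q m x| ≤
      (if m = 0 then min 1 ((k : ℝ) / q) / √(q : ℝ) - √(k : ℝ) / q else 0) +
        √(k : ℝ) * ((q : ℝ)⁻¹) ^ (m + 1) := by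
  have hq2 : (2 : ℝ) ≤ q := by exact_mod_cast hq
  have hl : 0 < Real.log q := Real.log_pos (by linarith)
  obtain ⟨h0, h1, hk⟩ := one_sub_pow_bounds k q m hq
  obtain ⟨b, hb⟩ : ∃ b, b = 1 - (1 - ((q : ℝ)⁻¹) ^ (m + 1)) ^ k := ⟨_, rfl⟩
  rw [← hb] at h0 h1 hk
  obtain ⟨c, hc⟩ : ∃ c, c = ((m : ℝ) + 1) * Real.log q := ⟨_, rfl⟩
  have hm : (1 : ℝ) ≤ (m : ℝ) + 1 := by linarith [(Nat.cast_nonneg m : (0 : ℝ) ≤ m)]
  have hc0 : 0 < c := hc ▸ by positivity
  have hp : ∀ v : ℝ, ((q : ℝ) ^ (-v)) ^ (m + 1) = Real.exp (-c * v) := fun v => by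
    rw [Real.rpow_def_of_pos (by linarith), ← Real.exp_nat_mul, hc]
    congr 1
    push_cast
    ring
  have hint : ∫ v in σ..σ', Real.exp (-c * v) ≤ Real.exp (-c * σ) / c := by
    rw [intervalIntegral.integral_comp_mul_left Real.exp (by linarith : -c ≠ 0), integral_exp,
      smul_eq_mul, div_eq_inv_mul, inv_neg, neg_mul_comm, neg_sub]
    exact mul_le_mul_of_nonneg_left (sub_le_self _ (Real.exp_pos _).le) (inv_pos.2 hc0).le
  have hmain : |∫ v in σ..σ', primeWave v k q m x| ≤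
      Real.log q * b * ∫ v in σ..σ', Real.exp (-c * v) := by
    rw [← Real.norm_eq_abs, ← intervalIntegral.integral_const_mul]
    refine intervalIntegral.norm_integral_le_of_norm_le h (Eventually.of_forall fun v _ => ?_)
      ((by fun_prop : Continuous fun v : ℝ => Real.log q * b * Real.exp (-c * v))
        |>.intervalIntegrable _ _)
    rw [Real.norm_eq_abs, hb]
    refine (abs_primeWave_le k hq m x).trans_eq ?_
    rw [hp v]
    ring
  refine (hmain.trans (mul_le_mul_of_nonneg_left hint (mul_nonneg hl.le h0))).trans ?_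
  rw [← hp σ]
  have hs : (q : ℝ) ^ (-σ) ≤ (√(q : ℝ))⁻¹ := by
    rw [Real.sqrt_eq_rpow, ← Real.rpow_neg (by linarith)]
    exact Real.rpow_le_rpow_of_exponent_le (by linarith) (by linarith)
  have hr : Real.log q * b * (((q : ℝ) ^ (-σ)) ^ (m + 1) / c) ≤
      ((√(q : ℝ))⁻¹) ^ (m + 1) * b := by
    rw [hc, show Real.log q * b * (((q : ℝ) ^ (-σ)) ^ (m + 1) / (((m : ℝ) + 1) * Real.log q)) =
        ((q : ℝ) ^ (-σ)) ^ (m + 1) * b / ((m : ℝ) + 1) by field_simp]
    exact (div_le_self (by positivity) hm).trans (mul_le_mul_of_nonneg_right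
      (pow_le_pow_left₀ (Real.rpow_nonneg (by linarith) _) hs _) h0)
  refine hr.trans ?_
  split_ifs with hm0
  · subst hm0
    simp only [zero_add, pow_one] at hk ⊢
    rw [sub_add, ← div_eq_mul_inv, sub_self, sub_zero, inv_mul_eq_div]
    exact div_le_div_of_nonneg_right (le_min h1 (hk.trans_eq (div_eq_mul_inv _ _).symm))
      (Real.sqrt_nonneg _)
  · rw [zero_add]
    obtain ⟨w, hw⟩ : ∃ w, w = ((√(q : ℝ))⁻¹) ^ (m + 1) := ⟨_, rfl⟩
    have hw2 : ((q : ℝ)⁻¹) ^ (m + 1) = w ^ 2 := by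
      rw [hw, ← pow_mul, mul_comm, pow_mul, inv_pow (√(q : ℝ)) 2, Real.sq_sqrt (by linarith)]
    have hw0 : 0 ≤ w := hw ▸ by positivity
    rw [hw2] at hk ⊢
    rw [← hw]
    have hs2 : b * b ≤ (√(k : ℝ) * w) * (√(k : ℝ) * w) := by
      rw [show (√(k : ℝ) * w) * (√(k : ℝ) * w) = √(k : ℝ) ^ 2 * w ^ 2 by ring,
        Real.sq_sqrt (Nat.cast_nonneg k)]
      exact (mul_le_of_le_one_left h0 h1).trans hk
    calc w * b ≤ w * (√(k : ℝ) * w) :=
          mul_le_mul_of_nonneg_left ((mul_self_le_mul_self_iff h0 (by positivity)).2 hs2) hw0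
      _ = √(k : ℝ) * w ^ 2 := by ring

/-- The bound of a wave at the left end. -/
def waveTop (σ : ℝ) (k q m : ℕ) : ℝ :=
  Real.log q * ((q : ℝ) ^ (-σ)) ^ (m + 1) * (1 - (1 - ((q : ℝ)⁻¹) ^ (m + 1)) ^ k)

theorem hasSum_waveTop {σ : ℝ} (hσ : 0 < σ) (k : ℕ) {q : ℕ} (hq : 2 ≤ q) :
    HasSum (waveTop σ k q)
      (-altSum k fun j : ℕ => if j = 0 then 0 else weightRe (pt σ 0 + j) q) :=
  (hasSum_primeWave hσ k hq 0).neg.congr_fun fun m => by
    simp [primeWave, waveTop]
    ring

theorem abs_primeWave_le_top {σ v : ℝ} (h : σ ≤ v) (k : ℕ) {q : ℕ} (hq : 2 ≤ q) (m : ℕ) (x : ℝ) :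
    ‖primeWave v k q m x‖ ≤ waveTop σ k q m := by
  rw [Real.norm_eq_abs]
  refine (abs_primeWave_le k hq m x).trans ?_
  exact mul_le_mul_of_nonneg_right (mul_le_mul_of_nonneg_left (pow_le_pow_left₀
    (Real.rpow_nonneg (Nat.cast_nonneg q) _)
    (Real.rpow_le_rpow_of_exponent_le (Nat.one_le_cast.2 (by omega)) (neg_le_neg h)) _)
    (Real.log_natCast_nonneg q)) (one_sub_pow_bounds k q m hq).1

theorem continuous_primeWave_sigma (k : ℕ) {q : ℕ} (hq : 2 ≤ q) (m : ℕ) (x : ℝ) :
    Continuous fun v : ℝ => primeWave v k q m x := by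
  have hp : Continuous fun v : ℝ => (q : ℝ) ^ (-v) :=
    continuous_const.rpow continuous_neg fun v => Or.inl (Nat.cast_ne_zero.2 (by omega))
  unfold primeWave
  exact (continuous_const.mul ((hp.pow _).mul continuous_const)).mul continuous_const

theorem fiber_horizontal {σ σ' : ℝ} (hσ : 1 / 2 < σ) (h : σ ≤ σ') (k q : ℕ) (x : ℝ) :
    ContinuousOn (fun v => altSum k fun j : ℕ => if j = 0 then 0 else weightRe (pt v x + j) q)
        (Ici σ) ∧
      |∫ v in σ..σ', altSum k fun j : ℕ => if j = 0 then 0 else weightRe (pt v x + j) q| ≤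
        waveBound k q := by
  rcases Nat.lt_or_ge q 2 with hq | hq
  · have h0 : (fun v : ℝ => altSum k fun j : ℕ =>
        if j = 0 then (0 : ℝ) else weightRe (pt v x + j) q) = fun _ => 0 := funext fun v => by
      simp [altSum, weightRe_small hq]
    rw [h0]
    simp [waveBound, hq, continuousOn_const]
  have hσ0 : 0 < σ := by linarith
  have hq2 : (2 : ℝ) ≤ q := by exact_mod_cast hq
  have hβ := (hasSum_waveTop hσ0 k hq).summable
  refine ⟨(continuousOn_tsum (fun m => (continuous_primeWave_sigma k hq m x).continuousOn) hβ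
    fun m v hv => abs_primeWave_le_top hv k hq m x).congr fun v hv =>
      (hasSum_primeWave (hσ0.trans_le hv) k hq x).tsum_eq.symm, ?_⟩
  have hs := intervalIntegral.hasSum_integral_of_dominated_convergence (μ := volume) (a := σ)
    (b := σ') (F := fun m v => primeWave v k q m x)
    (f := fun v => altSum k fun j : ℕ => if j = 0 then 0 else weightRe (pt v x + j) q)
    (fun m _ => waveTop σ k q m)
    (fun m => (continuous_primeWave_sigma k hq m x).aestronglyMeasurable)
    (fun m => Eventually.of_forall fun v hv => abs_primeWave_le_top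
      (by rw [uIoc_of_le h] at hv; exact hv.1.le) k hq m x)
    (Eventually.of_forall fun _ _ => hβ) intervalIntegrable_const
    (Eventually.of_forall fun v hv => hasSum_primeWave
      (hσ0.trans_le (by rw [uIoc_of_le h] at hv; exact hv.1.le)) k hq x)
  rw [← hs.tsum_eq, ← Real.norm_eq_abs]
  refine tsum_of_norm_bounded ?_ fun m =>
    abs_integral_primeWave_horizontal_le hσ h k hq m x
  rw [waveBound, if_neg (by omega)]
  have hg := (hasSum_geometric_of_lt_one (r := (q : ℝ)⁻¹) (by positivity)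
    (inv_lt_one_of_one_lt₀ (by linarith))).mul_left (√(k : ℝ) * (q : ℝ)⁻¹)
  have h1 := (hasSum_ite_eq 0 (min 1 ((k : ℝ) / q) / √(q : ℝ) - √(k : ℝ) / q)).add hg
  rw [show min 1 ((k : ℝ) / q) / √(q : ℝ) - √(k : ℝ) / q +
      √(k : ℝ) * (q : ℝ)⁻¹ * (1 - (q : ℝ)⁻¹)⁻¹ =
      min 1 ((k : ℝ) / q) / √(q : ℝ) + √(k : ℝ) / ((q : ℝ) * ((q : ℝ) - 1)) by
    have : (q : ℝ) - 1 ≠ 0 := by linarith
    field_simp
    ring] at h1
  exact h1.congr_fun fun m => by rw [pow_succ']; ring

variable (K : Type u) [Field K] [NumberField K]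

/-- **The primes, integrated in `σ`.** -/
theorem primeTerms_horizontal {σ σ' : ℝ} (hσ : 1 / 2 < σ) (h : σ ≤ σ') (k : ℕ) (x : ℝ) :
    ContinuousOn (fun v => altSum k (primeTerms K (pt v x))) (Ici σ) ∧
      |∫ v in σ..σ', altSum k (primeTerms K (pt v x))| ≤ 5 * √(k : ℝ) * finrank ℚ K := by
  have hσ0 : 0 < σ := by linarith
  obtain ⟨F, hF⟩ : ∃ F : ℕ → ℝ → ℝ, F = fun q v => (placeCount K q : ℝ) *
      altSum k fun j : ℕ => if j = 0 then 0 else weightRe (pt v x + j) q := ⟨_, rfl⟩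
  obtain ⟨u, hu⟩ : ∃ u : ℕ → ℝ, u = fun q => ‖(placeCount K q : ℝ) *
      altSum k fun j : ℕ => if j = 0 then 0 else weightRe (pt σ 0 + j) q‖ := ⟨_, rfl⟩
  have hh : ∀ v, σ ≤ v → HasSum (fun q => F q v) (altSum k (primeTerms K (pt v x))) :=
    fun v hv => by
    rw [hF]
    exact hasSum_primeTerms K (hσ0.trans_le hv) k
  have hus : Summable u := hu ▸ (hasSum_primeTerms K (x := 0) hσ0 k).summable.norm
  have hb : ∀ q v, σ ≤ v → ‖F q v‖ ≤ u q := fun q v hv => by
    rw [hu, hF]
    dsimp only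
    rw [norm_mul, norm_mul]
    refine mul_le_mul_of_nonneg_left ?_ (norm_nonneg _)
    rcases Nat.lt_or_ge q 2 with hq | hq
    · simp [altSum, weightRe_small hq]
    rw [← (hasSum_primeWave (hσ0.trans_le hv) k hq x).tsum_eq]
    exact (tsum_of_norm_bounded (hasSum_waveTop hσ0 k hq) fun m =>
      abs_primeWave_le_top hv k hq m x).trans ((le_abs_self _).trans_eq (abs_neg _))
  have hc : ∀ q, ContinuousOn (F q) (Ici σ) := fun q => by
    rw [hF]
    exact continuousOn_const.mul (fiber_horizontal hσ h k q x).1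
  refine ⟨(continuousOn_tsum hc hus fun q v hv => hb q v hv).congr fun v hv =>
    (hh v hv).tsum_eq.symm, ?_⟩
  have hmem : ∀ v ∈ uIoc σ σ', σ ≤ v := fun v hv => by rw [uIoc_of_le h] at hv; exact hv.1.le
  have hs := intervalIntegral.hasSum_integral_of_dominated_convergence (μ := volume) (a := σ)
    (b := σ') (F := F) (f := fun v => altSum k (primeTerms K (pt v x)))
    (fun q _ => u q)
    (fun q => ((hc q).mono fun v hv => hmem v hv).aestronglyMeasurable measurableSet_uIoc)
    (fun q => Eventually.of_forall fun v hv => hb q v (hmem v hv))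
    (Eventually.of_forall fun _ _ => hus) intervalIntegrable_const
    (Eventually.of_forall fun v hv => hh v (hmem v hv))
  have hws : Summable (waveBound k) :=
    summable_of_sum_range_le (waveBound_nonneg k) (sum_waveBound_le k)
  rw [← hs.tsum_eq, ← Real.norm_eq_abs]
  refine (tsum_of_norm_bounded (hws.hasSum.mul_left (finrank ℚ K : ℝ)) fun q => ?_).trans ?_
  · rw [hF]
    dsimp only
    rw [intervalIntegral.integral_const_mul, norm_mul, Real.norm_of_nonneg (Nat.cast_nonneg _),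
      Real.norm_eq_abs]
    exact mul_le_mul (Nat.cast_le.2 (placeCount_le K q)) (fiber_horizontal hσ h k q x).2
      (abs_nonneg _) (Nat.cast_nonneg _)
  · exact (mul_le_mul_of_nonneg_left
      (Real.tsum_le_of_sum_range_le (waveBound_nonneg k) (sum_waveBound_le k))
      (Nat.cast_nonneg _)).trans_eq (mul_comm _ _)

end FA.DedekindLittlewoodBound

end
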