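import Fermat.Agent.DedekindLittlewoodBound.Terms

/-!
# The averaged zeros, integrated in `σ`

`∑_{k ≤ L} r_k (c)/k = (1/c - r_L (c))/c` and `|r_L (u + i d)| ≤ exp (-u H_L/3)/|c|`, so along
`u ∈ [a, 3/2]` each zero gives at most twice its kernel at `a` plus its kernel at `3/2`.
-/

set_option autoImplicit false
set_option linter.style.haveILetI false

noncomputable section

universe u

open NumberField InfinitePlace Module Filter Topology Set MeasureTheory
open FA.TsfasmanVladut FA.EulerKroneckerFamilies FA.GRHBasicInequality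
open FA.FamilyZeroDensity FA.DedekindMultiplicity FA.DedekindHadamard FA.DedekindZeroCount
open FA.HeckeBS
open scoped Real Classical

namespace FA.DedekindLittlewoodBound

theorem pt_ne_zero {u : ℝ} (hu : 0 < u) (d : ℝ) (i : ℕ) : pt u d + i ≠ 0 := fun h => by
  have := congrArg Complex.re h
  simp at this
  linarith [(Nat.cast_nonneg i : (0 : ℝ) ≤ i)]

theorem avgAlt_re_inv_eq (L : ℕ) {u : ℝ} (hu : 0 < u) (d : ℝ) :
    (avgAlt L fun j : ℕ => ((pt u d + j)⁻¹).re) =
      (((pt u d)⁻¹) ^ 2).re - (cRatio (pt u d) L / pt u d).re := by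
  have hne := pt_ne_zero hu d
  have e : (avgAlt L fun j : ℕ => ((pt u d + j)⁻¹).re) =
      (∑ k ∈ Finset.Icc 1 L, (k : ℂ)⁻¹ * cRatio (pt u d) k).re := by
    rw [avgAlt, Complex.re_sum]
    refine Finset.sum_congr rfl fun k _ => ?_
    rw [re_altSum, altSum_inv_add k hne, cRatio,
      show ((k : ℂ))⁻¹ = (((k : ℝ)⁻¹ : ℝ) : ℂ) by push_cast; rfl, Complex.re_ofReal_mul]
  rw [e, sum_cRatio L hne, show cRatio (pt u d) 0 = (pt u d)⁻¹ by simp [cRatio], sub_div,
    Complex.sub_re, sq, div_eq_mul_inv]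

theorem norm_cRatio_le_exp (L : ℕ) {u : ℝ} (hu : 0 < u) (hu2 : u ≤ 2) (d : ℝ) :
    ‖cRatio (pt u d) L‖ ≤ Real.exp (-(u / 3) * (harmonic L : ℝ)) * ‖pt u d‖⁻¹ := by
  have h0 : 0 < ‖pt u d‖ := norm_pos_iff.2 (by simpa using pt_ne_zero hu d 0)
  rw [cRatio, norm_div, Complex.norm_natCast, norm_prod, Finset.prod_range_succ', Nat.cast_zero,
    add_zero, ← div_div, ← div_eq_mul_inv]
  refine div_le_div_of_nonneg_right ?_ h0.le
  have h1 : ∏ i ∈ Finset.range L, (u + ((i : ℝ) + 1)) ≤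
      ∏ i ∈ Finset.range L, ‖pt u d + ((i + 1 : ℕ) : ℂ)‖ :=
    Finset.prod_le_prod (fun i _ => by positivity) fun i _ =>
      le_trans (by simp) (Complex.re_le_norm _)
  refine (div_le_div_of_nonneg_left (Nat.cast_nonneg _)
    (Finset.prod_pos fun i _ => by positivity) h1).trans ?_
  rw [← Finset.prod_range_add_one_eq_factorial, Nat.cast_prod, ← Finset.prod_div_distrib]
  have hH : -(u / 3) * (harmonic L : ℝ) = ∑ i ∈ Finset.range L, -(u / 3) * ((i : ℝ) + 1)⁻¹ := by
    rw [harmonic, Rat.cast_sum, Finset.mul_sum]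
    exact Finset.sum_congr rfl fun i _ => by push_cast; rfl
  rw [hH, Real.exp_sum]
  refine Finset.prod_le_prod (fun i _ => by positivity) fun i _ => ?_
  push_cast
  obtain ⟨y, hy⟩ : ∃ y : ℝ, y = (i : ℝ) + 1 := ⟨_, rfl⟩
  have hy1 : 1 ≤ y := by linarith [(Nat.cast_nonneg i : (0 : ℝ) ≤ i)]
  rw [← hy]
  refine le_trans ?_ (Real.add_one_le_exp _)
  rw [div_le_iff₀ (by linarith), ← sub_nonneg]
  have e : (-(u / 3) * y⁻¹ + 1) * (u + y) - y = u * (2 * y - u) / (3 * y) := by
    field_simp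
    ring
  rw [e]
  exact div_nonneg (mul_nonneg hu.le (by linarith)) (by linarith)

theorem hasDerivAt_re_inv_pt {v : ℝ} (hv : 0 < v) (d : ℝ) :
    HasDerivAt (fun y : ℝ => ((pt y d)⁻¹).re) (-(((pt v d)⁻¹) ^ 2).re) v := by
  have h1 : HasDerivAt (fun z : ℂ => (z + d * Complex.I)⁻¹) (-1 / pt v d ^ 2) (v : ℂ) := by
    have h := ((hasDerivAt_id' (v : ℂ)).add_const ((d : ℂ) * Complex.I)).inv
      (by simpa [pt] using pt_ne_zero hv d 0)
    exact h
  have h2 := (Complex.reCLM.hasFDerivAt.comp_hasDerivAt v h1.comp_ofReal)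
  refine h2.congr_deriv ?_
  simp [neg_div, inv_pow]

theorem continuousOn_pt_sub (b d : ℝ) : Continuous fun v : ℝ => pt (v - b) d := by
  unfold pt
  fun_prop

theorem abs_integral_avg_le {L : ℕ} {a : ℝ} (ha : 0 < a) (hab : a ≤ 3 / 2)
    (haH : 16 ≤ a * (harmonic L : ℝ)) (d : ℝ) :
    |∫ v in a..(3 / 2), avgAlt L fun j : ℕ => ((pt v d + j)⁻¹).re| ≤
      2 * (a / (a ^ 2 + d ^ 2)) + (3 / 2) / ((3 / 2) ^ 2 + d ^ 2) := by
  obtain ⟨H, hH⟩ : ∃ H : ℝ, H = (harmonic L : ℝ) := ⟨_, rfl⟩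
  rw [← hH] at haH
  have hH0 : 0 < H := pos_of_mul_pos_right (by linarith) ha.le
  have hmem : ∀ v ∈ uIcc a (3 / 2), 0 < v ∧ a ≤ v ∧ v ≤ 3 / 2 := fun v hv => by
    rw [uIcc_of_le hab] at hv
    exact ⟨ha.trans_le hv.1, hv.1, hv.2⟩
  have hp : Continuous fun v : ℝ => pt v d := by unfold pt; fun_prop
  have hne : ∀ v ∈ uIcc a (3 / 2), ∀ i : ℕ, pt v d + i ≠ 0 := fun v hv i =>
    pt_ne_zero (hmem v hv).1 d i
  have hne0 : ∀ v ∈ uIcc a (3 / 2), pt v d ≠ 0 := fun v hv => by simpa using hne v hv 0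
  have hc1 : ContinuousOn (fun v : ℝ => (((pt v d)⁻¹) ^ 2).re) (uIcc a (3 / 2)) :=
    Complex.continuous_re.comp_continuousOn ((hp.continuousOn.inv₀ hne0).pow 2)
  have hc2 : ContinuousOn (fun v : ℝ => (cRatio (pt v d) L / pt v d).re) (uIcc a (3 / 2)) := by
    refine Complex.continuous_re.comp_continuousOn (ContinuousOn.div ?_ hp.continuousOn hne0)
    exact continuousOn_const.div
      (continuousOn_finsetProd _ fun i _ => (hp.add continuous_const).continuousOn)
      fun v hv => Finset.prod_ne_zero_iff.2 fun i _ => hne v hv i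
  rw [intervalIntegral.integral_congr fun v hv => avgAlt_re_inv_eq L (hmem v hv).1 d,
    intervalIntegral.integral_sub hc1.intervalIntegrable hc2.intervalIntegrable]
  have h1 : ∫ v in a..(3 / 2), (((pt v d)⁻¹) ^ 2).re =
      ((pt a d)⁻¹).re - ((pt (3 / 2) d)⁻¹).re := by
    rw [intervalIntegral.integral_eq_sub_of_hasDerivAt (f := fun y => -((pt y d)⁻¹).re)
      (fun v hv => ((hasDerivAt_re_inv_pt (hmem v hv).1 d).neg).congr_deriv (neg_neg _))
      hc1.intervalIntegrable]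
    ring
  have hk : ∀ v : ℝ, ((pt v d)⁻¹).re = v / (v ^ 2 + d ^ 2) := fun v => by
    rw [Complex.inv_re, Complex.normSq_apply, pt_re, pt_im, sq, sq]
  rw [h1, hk, hk]
  have h2 : |∫ v in a..(3 / 2), (cRatio (pt v d) L / pt v d).re| ≤
      (a / (a ^ 2 + d ^ 2)) := by
    have hg : Continuous fun v : ℝ => (a ^ 2 + d ^ 2)⁻¹ * Real.exp (-(H / 3) * v) := by fun_prop
    rw [← Real.norm_eq_abs]
    refine (intervalIntegral.norm_integral_le_of_norm_le hab (Eventually.of_forall fun v hv => ?_)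
      (hg.intervalIntegrable _ _)).trans ?_
    · have hv0 : 0 < v := ha.trans hv.1
      have hq0 : 0 < ‖pt v d‖ := norm_pos_iff.2 (by simpa using pt_ne_zero hv0 d 0)
      rw [Real.norm_eq_abs]
      refine (Complex.abs_re_le_norm _).trans ?_
      rw [norm_div, div_le_iff₀ hq0]
      refine (norm_cRatio_le_exp L hv0 (by linarith [hv.2]) d).trans ?_
      rw [← hH, show -(v / 3) * H = -(H / 3) * v by ring,
        show (a ^ 2 + d ^ 2)⁻¹ * Real.exp (-(H / 3) * v) * ‖pt v d‖ =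
          Real.exp (-(H / 3) * v) * ((a ^ 2 + d ^ 2)⁻¹ * ‖pt v d‖) by ring]
      refine mul_le_mul_of_nonneg_left ?_ (Real.exp_pos _).le
      have hn : a ^ 2 + d ^ 2 ≤ ‖pt v d‖ * ‖pt v d‖ := by
        rw [Complex.norm_mul_self_eq_normSq, Complex.normSq_apply, pt_re, pt_im]
        nlinarith [hv.1]
      have hpos : 0 < a ^ 2 + d ^ 2 := by positivity
      rw [inv_mul_eq_div, le_div_iff₀ hpos, inv_mul_le_iff₀ hq0]
      exact hn
    · rw [intervalIntegral.integral_const_mul,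
        intervalIntegral.integral_comp_mul_left Real.exp (by linarith : -(H / 3) ≠ 0), integral_exp,
        smul_eq_mul, inv_neg, neg_mul_comm, neg_sub, div_eq_inv_mul a]
      refine mul_le_mul_of_nonneg_left ?_ (by positivity)
      refine (mul_le_mul_of_nonneg_left
        (sub_le_self _ (Real.exp_pos _).le) (by positivity)).trans ?_
      have h3 : Real.exp (-(H / 3) * a) ≤ 1 :=
        Real.exp_le_one_iff.2 (mul_nonpos_of_nonpos_of_nonneg (by linarith) ha.le)
      refine (mul_le_of_le_one_right (by positivity) h3).trans ?_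
      rw [inv_div, div_le_iff₀ hH0]
      linarith
  have p1 : 0 ≤ a / (a ^ 2 + d ^ 2) := by positivity
  have p2 : 0 ≤ (3 / 2 : ℝ) / ((3 / 2) ^ 2 + d ^ 2) := by positivity
  rw [abs_le] at h2 ⊢
  constructor <;> linarith

variable (K : Type u) [Field K] [NumberField K]

theorem continuousOn_fieldLog_sigma (hRH : RHFor K) (x : ℝ) :
    ContinuousOn (fun v : ℝ => fieldLog K (pt v x)) (Ioi (1 / 2)) := by
  have hd := differentiable_xiFun K
  have hp : Continuous fun v : ℝ => pt v x := by unfold pt; fun_prop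
  have hd' : Continuous (deriv (xiFun K)) := (hd.contDiff (n := 1)).continuous_deriv le_rfl
  exact Complex.continuous_re.comp_continuousOn ((hd'.comp hp).continuousOn.div
    (hd.continuous.comp hp).continuousOn fun v hv => xiFun_pt_ne K hRH hv x)

/-- **The averaged zeros, integrated.** -/
theorem abs_integral_avgAlt_fieldLog_le (hRH : RHFor K) {L : ℕ} {a : ℝ} (ha : 0 < a)
    (hab : a ≤ 3 / 2) (haH : 16 ≤ a * (harmonic L : ℝ)) (x : ℝ) :
    |∫ v in a..(3 / 2), avgAlt L fun j : ℕ => fieldLog K (pt (1 / 2 + v + j) x)| ≤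
      2 * fieldLog K (pt (1 / 2 + a) x) + fieldLog K (pt (1 / 2 + 3 / 2) x) := by
  have hha := hasSum_reTerm K (xiFun_pt_ne K hRH (σ := 1 / 2 + a) (by linarith) x)
  have hhb := hasSum_reTerm K (xiFun_pt_ne K hRH (σ := 1 / 2 + 3 / 2) (by norm_num) x)
  obtain ⟨S, hS⟩ : ∃ S, S = Function.support (reTerm K (pt (1 / 2 + a) x)) := ⟨_, rfl⟩
  have : Countable S := hS ▸ hha.summable.countable_support.to_subtype
  have hout : ∀ ρ, ρ ∉ S → xiMult K ρ = 0 := fun ρ hρ => by
    rw [hS, Function.notMem_support, reTerm_pt K hRH, add_sub_cancel_left, mul_eq_zero] at hρ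
    rcases hρ with h | h
    · exact_mod_cast h
    · exact absurd h (by positivity)
  obtain ⟨G, hG⟩ : ∃ G : ℂ → ℝ → ℝ, G = fun ρ v =>
      (xiMult K ρ : ℝ) * avgAlt L fun j : ℕ => ((pt v (x - ρ.im) + j)⁻¹).re := ⟨_, rfl⟩
  have hmem : ∀ v ∈ uIoc a (3 / 2), a ≤ v ∧ 0 < v := fun v hv => by
    rw [uIoc_of_le hab] at hv
    exact ⟨hv.1.le, ha.trans hv.1⟩
  have hsupp : ∀ v, Function.support (fun ρ => G ρ v) ⊆ S := fun v ρ hρ => by
    by_contra h
    exact hρ (by simp [hG, hout ρ h])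
  have hpt : ∀ v, 0 < v → HasSum (fun ρ : S => G ρ v)
      (avgAlt L fun j : ℕ => fieldLog K (pt (1 / 2 + v + j) x)) := fun v hv => by
    refine (hasSum_subtype_iff_of_support_subset (f := fun ρ => G ρ v) (hsupp v)).2 ?_
    have hne : ∀ j : ℕ, 1 / 2 < 1 / 2 + v + j := fun j => by
      linarith [(Nat.cast_nonneg j : (0 : ℝ) ≤ j)]
    refine HasSum.congr_fun (hasSum_sum fun k _ => HasSum.mul_left _ <| hasSum_sum fun j _ =>
      (hasSum_reTerm K (xiFun_pt_ne K hRH (hne j) x)).mul_left _) fun ρ => ?_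
    rw [hG]
    dsimp only
    rw [← avgAlt_mul_left]
    simp only [avgAlt, altSum]
    refine Finset.sum_congr rfl fun k _ => ?_
    congr 1
    refine Finset.sum_congr rfl fun j _ => ?_
    rw [reTerm_pt K hRH, pt_add_natCast, Complex.inv_re, Complex.normSq_apply, pt_re, pt_im,
      show 1 / 2 + v + (j : ℝ) - 1 / 2 = v + j by ring, sq, sq]
  have hbd : ∀ ρ v, v ∈ uIoc a (3 / 2) → ‖G ρ v‖ ≤ 2 / a * reTerm K (pt (1 / 2 + a) x) ρ :=
    fun ρ v hv => by
    obtain ⟨hv1, hv0⟩ := hmem v hv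
    rw [hG, norm_mul, Real.norm_of_nonneg (Nat.cast_nonneg _), reTerm_pt K hRH,
      add_sub_cancel_left, mul_left_comm]
    refine mul_le_mul_of_nonneg_left ?_ (Nat.cast_nonneg _)
    rw [Real.norm_eq_abs]
    refine (abs_avgAlt_re_inv_le L (by rw [pt_re]; exact hv0)).trans ?_
    rw [Complex.normSq_apply, pt_re, pt_im, ← sq, ← sq,
      show 2 / a * (a / (a ^ 2 + (x - ρ.im) ^ 2)) = 2 / (a ^ 2 + (x - ρ.im) ^ 2) by field_simp]
    exact div_le_div_of_nonneg_left zero_le_two (by positivity)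
      (add_le_add_left (pow_le_pow_left₀ ha.le hv1 2) _)
  have hbs : Summable fun ρ : S => 2 / a * reTerm K (pt (1 / 2 + a) x) ρ :=
    (hha.summable.mul_left _).subtype S
  have hcont : ∀ ρ, ContinuousOn (G ρ) (uIoc a (3 / 2)) := fun ρ => by
    rw [hG]
    refine continuousOn_const.mul (continuousOn_finsetSum _ fun k _ => continuousOn_const.mul
      (continuousOn_finsetSum _ fun j _ => continuousOn_const.mul ?_))
    refine Complex.continuous_re.comp_continuousOn (ContinuousOn.inv₀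
      (Continuous.continuousOn (by unfold pt; fun_prop)) fun v hv => ?_)
    exact pt_ne_zero (hmem v hv).2 _ j
  have hs := intervalIntegral.hasSum_integral_of_dominated_convergence (μ := volume) (a := a)
    (b := 3 / 2) (F := fun (ρ : S) v => G ρ v)
    (f := fun v => avgAlt L fun j : ℕ => fieldLog K (pt (1 / 2 + v + j) x))
    (fun ρ _ => 2 / a * reTerm K (pt (1 / 2 + a) x) ρ)
    (fun ρ => (hcont ρ).aestronglyMeasurable measurableSet_uIoc)
    (fun ρ => Eventually.of_forall fun v hv => hbd ρ v hv)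
    (Eventually.of_forall fun _ _ => hbs) intervalIntegrable_const
    (Eventually.of_forall fun v hv => hpt v (hmem v hv).2)
  have hsub : Function.support (fun ρ => 2 * reTerm K (pt (1 / 2 + a) x) ρ +
      reTerm K (pt (1 / 2 + 3 / 2) x) ρ) ⊆ S := fun ρ hρ => by
    by_contra h
    exact hρ (by simp [reTerm, hout ρ h])
  have hsum := (hasSum_subtype_iff_of_support_subset hsub).2 ((hha.mul_left 2).add hhb)
  rw [← hs.tsum_eq, ← Real.norm_eq_abs]
  refine tsum_of_norm_bounded hsum fun ρ => ?_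
  simp only [hG, Function.comp_apply]
  rw [intervalIntegral.integral_const_mul, norm_mul, Real.norm_of_nonneg (Nat.cast_nonneg _),
    Real.norm_eq_abs, reTerm_pt K hRH, reTerm_pt K hRH, add_sub_cancel_left, add_sub_cancel_left,
    mul_left_comm (2 : ℝ), ← mul_add]
  exact mul_le_mul_of_nonneg_left (abs_integral_avg_le ha hab haH _) (Nat.cast_nonneg _)

end FA.DedekindLittlewoodBound

end
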